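/-
S55 / 47d-LOC-HILBERT (helper21), file 2: Hilbert 90 for level cochains of an arbitrary (possibly
infinite) Galois extension `Ω/K`.

Generalises `ESRep20.hilbert90_level` (helper20, `ℚ̄/ℚ`) to any Galois `Ω/K`: a multiplicative
`1`-cocycle `z : Γ → Ωˣ` of a group `Γ` mapping to `Gal(Ω/K)`, constant modulo the preimage of the
fixing subgroup of a finite subextension, is a coboundary.  (Poincaré series over the finite coset
space; no descent to finite level.)  Mathlib only.
-/
import Mathlib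

set_option autoImplicit false
set_option linter.unusedSectionVars false
set_option linter.style.haveILetI false

namespace Fermat.Agent.S55.LocHilbert21

variable {K Ω : Type*} [Field K] [Field Ω] [Algebra K Ω]

/-- Fixing subgroups of finite subextensions of a Galois extension have finite index. -/
theorem finiteIndex_fixingSubgroup [IsGalois K Ω] (F : IntermediateField K Ω)
    [FiniteDimensional K F] : F.fixingSubgroup.FiniteIndex :=
  ⟨by rw [← IntermediateField.finrank_eq_fixingSubgroup_index]; exact Module.finrank_pos.ne'⟩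

/-- **Hilbert 90 for level cochains.**  `Γ` any group with `r : Γ →* Gal(Ω/K)`; a multiplicative
`1`-cocycle `z : Γ → Ωˣ` constant modulo `r⁻¹(Gal(Ω/F))`, `F/K` finite, is a coboundary. -/
theorem hilbert90_level [IsGalois K Ω] {Γ : Type*} [Group Γ] (r : Γ →* (Ω ≃ₐ[K] Ω))
    (z : Γ → Ωˣ) (hz : ∀ σ τ : Γ, z (σ * τ) = z σ * (r σ • z τ))
    (F : IntermediateField K Ω) [FiniteDimensional K F]
    (hc : ∀ σ s : Γ, r s ∈ F.fixingSubgroup → z (σ * s) = z σ) :
    ∃ b : Ωˣ, ∀ σ : Γ, z σ = (r σ • b) / b := by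
  classical
  haveI : F.fixingSubgroup.FiniteIndex := finiteIndex_fixingSubgroup F
  set W : Subgroup Γ := F.fixingSubgroup.comap r with hW
  haveI : W.FiniteIndex := ⟨by
    rw [hW, Subgroup.index_comap]
    exact (Subgroup.instFiniteIndex_subgroupOf F.fixingSubgroup r.range).index_ne_zero⟩
  haveI : Finite (Γ ⧸ W) := Subgroup.finite_quotient_of_finiteIndex
  letI : Fintype (Γ ⧸ W) := Fintype.ofFinite _
  -- the summands
  let φ : F → Γ → Ω := fun c σ => (z σ : Ω) * r σ (c : Ω)
  have hφ : ∀ (c : F) (σ τ : Γ), (σ : Γ ⧸ W) = τ → φ c σ = φ c τ := by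
    intro c σ τ h
    have h' : σ⁻¹ * τ ∈ W := QuotientGroup.eq.1 h
    have hs : r (σ⁻¹ * τ) ∈ F.fixingSubgroup := h'
    have e : σ * (σ⁻¹ * τ) = τ := by group
    have h1 : z τ = z σ := by rw [← e]; exact hc σ _ hs
    have h2 : r τ (c : Ω) = r σ (c : Ω) := by
      rw [← e, map_mul, AlgEquiv.mul_apply]
      congr 1
      exact (IntermediateField.mem_fixingSubgroup_iff _ _).1 hs _ c.2
    show (z σ : Ω) * r σ (c : Ω) = (z τ : Ω) * r τ (c : Ω)
    rw [h1, h2]
  let P : F → Ω := fun c => ∑ q : Γ ⧸ W, φ c (Quotient.out q)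
  -- transformation rule
  have hP : ∀ (c : F) (τ : Γ), r τ (P c) = ((z τ : Ω))⁻¹ * P c := by
    intro c τ
    have h1 : ∀ q : Γ ⧸ W, r τ (φ c (Quotient.out q)) =
        ((z τ : Ω))⁻¹ * φ c (Quotient.out (τ • q)) := by
      intro q
      have hq : ((τ * Quotient.out q : Γ) : Γ ⧸ W) = (Quotient.out (τ • q) : Γ) := by
        rw [QuotientGroup.out_eq']
        conv_rhs => rw [← QuotientGroup.out_eq' q]
        rfl
      rw [← hφ c _ _ hq]
      show r τ ((z (Quotient.out q) : Ω) * r (Quotient.out q) (c : Ω)) =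
        ((z τ : Ω))⁻¹ * ((z (τ * Quotient.out q) : Ω) * r (τ * Quotient.out q) (c : Ω))
      rw [hz τ (Quotient.out q), Units.val_mul, map_mul, map_mul, AlgEquiv.mul_apply, ← mul_assoc,
        ← mul_assoc, inv_mul_cancel₀ (Units.ne_zero _), one_mul]
      rfl
    show r τ (∑ q : Γ ⧸ W, φ c (Quotient.out q)) = _
    rw [map_sum, Finset.sum_congr rfl (fun q _ => h1 q), ← Finset.mul_sum]
    congr 1
    exact Fintype.sum_equiv (MulAction.toPerm τ) _ _ (fun q => rfl)
  -- non-vanishing, by Dedekind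
  obtain ⟨c, hcne⟩ : ∃ c : F, P c ≠ 0 := by
    by_contra hcon
    push Not at hcon
    let χ : Γ ⧸ W → (F →* Ω) := fun q =>
      ((r (Quotient.out q) : Ω ≃ₐ[K] Ω) : Ω →* Ω).comp ((algebraMap F Ω : F →+* Ω) : F →* Ω)
    have hχ : Function.Injective χ := by
      intro q q' h
      rw [← QuotientGroup.out_eq' q, ← QuotientGroup.out_eq' q']
      refine QuotientGroup.eq.2 ?_
      show r ((Quotient.out q)⁻¹ * Quotient.out q') ∈ F.fixingSubgroup
      rw [IntermediateField.mem_fixingSubgroup_iff]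
      intro x hx
      have := DFunLike.congr_fun h (⟨x, hx⟩ : F)
      have h' : r (Quotient.out q) x = r (Quotient.out q') x := this
      rw [map_mul, map_inv, AlgEquiv.mul_apply, ← h']
      exact (r (Quotient.out q)).symm_apply_apply x
    have hli : LinearIndependent Ω (fun q : Γ ⧸ W => ((χ q : F →* Ω) : F → Ω)) :=
      (linearIndependent_monoidHom F Ω).comp χ hχ
    have h0 := Fintype.linearIndependent_iff.1 hli (fun q => (z (Quotient.out q) : Ω)) (by
      funext c
      simp only [Finset.sum_apply, Pi.smul_apply, smul_eq_mul, Pi.zero_apply]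
      exact hcon c)
    exact Units.ne_zero _ (h0 ((1 : Γ) : Γ ⧸ W))
  refine ⟨(Units.mk0 (P c) hcne)⁻¹, fun σ => ?_⟩
  apply Units.ext
  rw [Units.val_div_eq_div_val, AlgEquiv.smul_units_def, Units.coe_map,
    Units.val_inv_eq_inv_val, Units.val_mk0]
  show (z σ : Ω) = r σ (P c)⁻¹ / (P c)⁻¹
  rw [map_inv₀, hP c σ, mul_inv, inv_inv, div_eq_mul_inv, inv_inv, mul_assoc,
    inv_mul_cancel₀ hcne, mul_one]

end Fermat.Agent.S55.LocHilbert21
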