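/-
S55 / 47d-LOC-HILBERT (helper21), file 1: the norm-residue symbol as a cup product, on an
arbitrary group.

`Γ` a group, `C : Rep k Γ`, `χ : Γ →* Multiplicative (ZMod n)` a character and `β : C` with
`n • β` invariant (think `C = Mˣ`, `β ^ n = b ∈ Kˣ`).  The Kummer cochain `κ_β g = g β - β` takes
values in the `n`-torsion of `C`.  We show, with explicit cochains, that in `H²(Γ, C)`

  `χ ∪ κ_β = δχ ∪ b = -(κ_β ∪ χ)`        (`b = n • β`),

where `δχ ∪ b` is the carry cocycle of `GlobalInv91.Carry`.  Consequently (norm criterion): if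
`χ ∪ κ_β` (or `κ_β ∪ χ`) is a coboundary with values in `C`, and `H¹(ker χ, C) = 0`, then `b` is a
norm from the `ker χ`-invariants.  Mathlib + `GlobalInv91.Carry` only.
-/
import Mathlib
import Fermat.Agent.S55.GlobalInv91.Carry

set_option autoImplicit false
set_option linter.unusedSectionVars false

namespace Fermat.Agent.S55.LocHilbert21

open groupCohomology Fermat.Agent.S55.GlobalInv91

universe u

variable {k Γ : Type u} [CommRing k] [Group Γ] (C : Rep k Γ) {n : ℕ} [NeZero n]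

/-! ## Closure properties of elementary coboundaries -/

section Cob

variable {C}

lemma isCob₂_add {f f' : Γ × Γ → C} (h : IsCob₂ C f) (h' : IsCob₂ C f') : IsCob₂ C (f + f') := by
  rw [isCob₂_iff_mem] at *
  exact Submodule.add_mem _ h h'

lemma isCob₂_neg {f : Γ × Γ → C} (h : IsCob₂ C f) : IsCob₂ C (-f) := by
  rw [isCob₂_iff_mem] at *
  exact Submodule.neg_mem _ h

lemma isCob₂_sub {f f' : Γ × Γ → C} (h : IsCob₂ C f) (h' : IsCob₂ C f') : IsCob₂ C (f - f') := by
  rw [isCob₂_iff_mem] at *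
  exact Submodule.sub_mem _ h h'

lemma isCob₂_zero : IsCob₂ C (0 : Γ × Γ → C) := by
  rw [isCob₂_iff_mem]
  exact Submodule.zero_mem _

/-- Push-forward of a coboundary along an equivariant additive map (possibly between
representations over different rings). -/
lemma isCob₂_map {k' : Type u} [CommRing k'] {A : Rep k' Γ} (ι : A →+ C)
    (hι : ∀ (g : Γ) (a : A), ι (A.ρ g a) = C.ρ g (ι a)) {f : Γ × Γ → A} (h : IsCob₂ A f) :
    IsCob₂ C (fun p => ι (f p)) := by
  obtain ⟨x, hx⟩ := h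
  refine ⟨fun g => ι (x g), fun g h => ?_⟩
  show C.ρ g (ι (x h)) - ι (x (g * h)) + ι (x g) = ι (f (g, h))
  rw [← hx g h, map_add, map_sub, hι]

end Cob

/-! ## The Kummer cochain and the two cup products with a character -/

/-- The Kummer 1-cochain `g ↦ g β - β` (the coboundary of the 0-cochain `β`). -/
def kum (β : C) : Γ → C := fun g => C.ρ g β - β

lemma kum_apply (β : C) (g : Γ) : kum C β g = C.ρ g β - β := rfl

/-- `κ_β` takes values in the `n`-torsion if `n • β` is invariant. -/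
lemma nsmul_kum {β : C} (hβ : ∀ g : Γ, C.ρ g (n • β) = n • β) (g : Γ) : n • kum C β g = 0 := by
  rw [kum_apply, nsmul_sub, ← map_nsmul, hβ, sub_self]

/-- `κ_β` is a 1-cocycle. -/
lemma kum_mul (β : C) (g h : Γ) : kum C β (g * h) = C.ρ g (kum C β h) + kum C β g := by
  simp only [kum_apply, map_mul, Module.End.mul_apply, map_sub]
  abel

/-- `χ ∪ κ_β : (g, h) ↦ χ(g) • g (κ_β h)` (the cup product `ZMod n ⊗ C[n] → C[n]`, written with
the canonical lift of `χ(g)` to `ℕ`). -/
def chiCupKum (χ : Γ →* Multiplicative (ZMod n)) (β : C) : Γ × Γ → C :=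
  fun p => (chiVal χ p.1).val • C.ρ p.1 (kum C β p.2)

/-- `κ_β ∪ χ : (g, h) ↦ χ(h) • κ_β g`. -/
def kumCupChi (χ : Γ →* Multiplicative (ZMod n)) (β : C) : Γ × Γ → C :=
  fun p => (chiVal χ p.2).val • kum C β p.1

lemma chiCupKum_apply (χ : Γ →* Multiplicative (ZMod n)) (β : C) (g h : Γ) :
    chiCupKum C χ β (g, h) = (chiVal χ g).val • C.ρ g (kum C β h) := rfl

lemma kumCupChi_apply (χ : Γ →* Multiplicative (ZMod n)) (β : C) (g h : Γ) :
    kumCupChi C χ β (g, h) = (chiVal χ h).val • kum C β g := rfl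

variable {C}

/-- **`δχ ∪ b = χ ∪ κ_β` in `H²(Γ, C)`** (`b = n • β` invariant), with the explicit 1-cochain
`g ↦ χ(g) • g β`. -/
theorem carry_sub_chiCupKum_isCob₂ (χ : Γ →* Multiplicative (ZMod n)) {β : C}
    (hβ : ∀ g : Γ, C.ρ g (n • β) = n • β) :
    IsCob₂ C (carry C χ (n • β) - chiCupKum C χ β) := by
  refine ⟨fun g => (chiVal χ g).val • C.ρ g β, fun g h => ?_⟩
  simp only [Pi.sub_apply, carry_apply, chiCupKum_apply, kum_apply, map_nsmul, map_sub, chiVal_mul]
  have hv := val_add_val n (chiVal χ g) (chiVal χ h)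
  have hgh : C.ρ g (C.ρ h β) = C.ρ (g * h) β := by rw [map_mul]; rfl
  rw [hgh]
  set i := (chiVal χ g).val
  set j := (chiVal χ h).val
  set l := (chiVal χ g + chiVal χ h).val
  set c := carryNat n (chiVal χ g) (chiVal χ h)
  set B := C.ρ (g * h) β
  -- `n • B` is the invariant element
  have hnB : n • B = n • β := by
    show n • C.ρ (g * h) β = n • β
    rw [← map_nsmul, hβ]
  have key : i • B + j • B = l • B + c • (n • β) := by
    rw [← hnB, ← mul_nsmul, ← add_nsmul, ← add_nsmul, hv, mul_comm]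
  rw [nsmul_sub]
  have : j • B = l • B + c • (n • β) - i • B := by rw [← key]; abel
  rw [this]
  abel

/-- **`δχ ∪ b = -(κ_β ∪ χ)` in `H²(Γ, C)`**, with the explicit 1-cochain `g ↦ χ(g) • β`. -/
theorem carry_add_kumCupChi_isCob₂ (χ : Γ →* Multiplicative (ZMod n)) (β : C) :
    IsCob₂ C (carry C χ (n • β) + kumCupChi C χ β) := by
  refine ⟨fun g => (chiVal χ g).val • β, fun g h => ?_⟩
  simp only [Pi.add_apply, carry_apply, kumCupChi_apply, kum_apply, map_nsmul, chiVal_mul]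
  have hv := val_add_val n (chiVal χ g) (chiVal χ h)
  set i := (chiVal χ g).val
  set j := (chiVal χ h).val
  set l := (chiVal χ g + chiVal χ h).val
  set c := carryNat n (chiVal χ g) (chiVal χ h)
  have key : i • β + j • β = l • β + c • (n • β) := by
    rw [← mul_nsmul, ← add_nsmul, ← add_nsmul, hv, mul_comm]
  rw [nsmul_sub]
  have : i • β = l • β + c • (n • β) - j • β := by rw [← key]; abel
  rw [this]
  abel

/-- Anti-commutativity for the pair `(χ, κ_β)`: `χ ∪ κ_β + κ_β ∪ χ` is a coboundary. -/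
theorem chiCupKum_add_kumCupChi_isCob₂ (χ : Γ →* Multiplicative (ZMod n)) {β : C}
    (hβ : ∀ g : Γ, C.ρ g (n • β) = n • β) :
    IsCob₂ C (chiCupKum C χ β + kumCupChi C χ β) := by
  have h1 := carry_sub_chiCupKum_isCob₂ χ hβ
  have h2 := carry_add_kumCupChi_isCob₂ χ β
  have := isCob₂_sub h2 h1
  have e : carry C χ (n • β) + kumCupChi C χ β - (carry C χ (n • β) - chiCupKum C χ β) =
      chiCupKum C χ β + kumCupChi C χ β := by abel
  rwa [e] at this

theorem carry_isCob₂_of_chiCupKum (χ : Γ →* Multiplicative (ZMod n)) {β : C}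
    (hβ : ∀ g : Γ, C.ρ g (n • β) = n • β) (h : IsCob₂ C (chiCupKum C χ β)) :
    IsCob₂ C (carry C χ (n • β)) := by
  have := isCob₂_add (carry_sub_chiCupKum_isCob₂ χ hβ) h
  rwa [sub_add_cancel] at this

theorem carry_isCob₂_of_kumCupChi (χ : Γ →* Multiplicative (ZMod n)) (β : C)
    (h : IsCob₂ C (kumCupChi C χ β)) : IsCob₂ C (carry C χ (n • β)) := by
  have := isCob₂_sub (carry_add_kumCupChi_isCob₂ χ β) h
  rwa [add_sub_cancel_right] at this

theorem chiCupKum_isCob₂_iff_carry (χ : Γ →* Multiplicative (ZMod n)) {β : C}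
    (hβ : ∀ g : Γ, C.ρ g (n • β) = n • β) :
    IsCob₂ C (chiCupKum C χ β) ↔ IsCob₂ C (carry C χ (n • β)) := by
  refine ⟨carry_isCob₂_of_chiCupKum χ hβ, fun h => ?_⟩
  have := isCob₂_sub h (carry_sub_chiCupKum_isCob₂ χ hβ)
  rwa [sub_sub_cancel] at this

/-! ## The norm criterion -/

/-- **Norm criterion.**  `s` a lift of the generator (`χ s = 1 ∈ ZMod n`), `H¹(ker χ, C) = 0` in
elementary form, `b = n • β` invariant.  If `χ ∪ κ_β` is a coboundary with values in `C`, then `b`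
is the norm `∑_{i<n} s^i y` of a `ker χ`-invariant element `y`. -/
theorem exists_norm_of_chiCupKum_isCob₂ {χ : Γ →* Multiplicative (ZMod n)} {s : Γ}
    (hs : chiVal χ s = 1)
    (hH1 : ∀ f : χ.ker → C, (∀ z w : χ.ker, f (z * w) = C.ρ (z : Γ) (f w) + f z) →
      ∃ y : C, ∀ z : χ.ker, f z = C.ρ (z : Γ) y - y)
    {β : C} (hβ : ∀ g : Γ, C.ρ g (n • β) = n • β) (h : IsCob₂ C (chiCupKum C χ β)) :
    ∃ y : C, (∀ z : Γ, χ z = 1 → C.ρ z y = y) ∧ n • β = partialNorm C s y n :=
  exists_norm_of_carry_isCob₂ hs hH1 hβ (carry_isCob₂_of_chiCupKum χ hβ h)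

/-- The same with the factors in the other order. -/
theorem exists_norm_of_kumCupChi_isCob₂ {χ : Γ →* Multiplicative (ZMod n)} {s : Γ}
    (hs : chiVal χ s = 1)
    (hH1 : ∀ f : χ.ker → C, (∀ z w : χ.ker, f (z * w) = C.ρ (z : Γ) (f w) + f z) →
      ∃ y : C, ∀ z : χ.ker, f z = C.ρ (z : Γ) y - y)
    {β : C} (hβ : ∀ g : Γ, C.ρ g (n • β) = n • β) (h : IsCob₂ C (kumCupChi C χ β)) :
    ∃ y : C, (∀ z : Γ, χ z = 1 → C.ρ z y = y) ∧ n • β = partialNorm C s y n :=
  exists_norm_of_carry_isCob₂ hs hH1 hβ (carry_isCob₂_of_kumCupChi χ β h)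

/-- Converse: norms give trivial symbols. -/
theorem chiCupKum_isCob₂_of_norm {χ : Γ →* Multiplicative (ZMod n)} {s : Γ}
    (hs : chiVal χ s = 1) {β y : C} (hy : ∀ z : Γ, χ z = 1 → C.ρ z y = y)
    (hβ : ∀ g : Γ, C.ρ g (n • β) = n • β) (hN : n • β = partialNorm C s y n) :
    IsCob₂ C (chiCupKum C χ β) := by
  rw [chiCupKum_isCob₂_iff_carry χ hβ, hN]
  exact carry_isCob₂_of_norm hs hy

end Fermat.Agent.S55.LocHilbert21
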