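/-
S55 / 47d-LOC-HILBERT (helper21), file 3: the norm criterion with an explicit bounding cochain.

`exists_norm_of_carry_eq_d` is the variant of helper91's `GlobalInv91.exists_norm_of_carry_isCob₂`
in which `H¹(ker χ, C) = 0` is only used for the restriction of the given bounding cochain (so that
it applies to level cochains of profinite groups, where only *continuous* `H¹` vanishes).
`exists_norm_of_chiCupKum_eq_d`, `exists_norm_of_kumCupChi_eq_d`: the same for the cup products
`χ ∪ κ_β`, `κ_β ∪ χ`, via the explicit cochains `chiLift`, `chiLift'`.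
Mathlib + `GlobalInv91.Carry` + `Symbol.lean`.
-/
import Mathlib
import Fermat.Agent.S55.LocHilbert21.Symbol

set_option autoImplicit false
set_option linter.unusedSectionVars false

namespace Fermat.Agent.S55.LocHilbert21

open groupCohomology Fermat.Agent.S55.GlobalInv91

universe u

variable {k Γ : Type u} [CommRing k] [Group Γ] {C : Rep k Γ} {n : ℕ} [NeZero n]

/-- Variant of `GlobalInv91.exists_norm_of_carry_isCob₂` (helper91, (C5)) in which the vanishing
of `H¹(ker χ, C)` is only required for the restriction of the given bounding cochain `x`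
(so that it applies to *level* cochains of a profinite group). -/
theorem exists_norm_of_carry_eq_d {χ : Γ →* Multiplicative (ZMod n)} {s : Γ} {a : C}
    (hs : chiVal χ s = 1) (ha : ∀ g : Γ, C.ρ g a = a) (x : Γ → C)
    (hx : ∀ g h : Γ, C.ρ g (x h) - x (g * h) + x g = carry C χ a (g, h))
    (y : C) (hy : ∀ z : Γ, χ z = 1 → x z = C.ρ z y - y) :
    ∃ b : C, (∀ z : Γ, χ z = 1 → C.ρ z b = b) ∧ a = partialNorm C s b n := by
  by_cases hn : n = 1
  · subst hn
    refine ⟨a, fun z _ => ha z, ?_⟩
    simp [partialNorm]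
  simp only [carry_apply] at hx
  have hker : ∀ z : Γ, χ z = 1 → chiVal χ z = 0 := fun z hz => by
    show Multiplicative.toAdd (χ z) = 0
    rw [hz]; rfl
  set x' : Γ → C := fun g => x g - (C.ρ g y - y) with hx'def
  have hx' : ∀ g h : Γ, C.ρ g (x' h) - x' (g * h) + x' g =
      carryNat n (chiVal χ g) (chiVal χ h) • a := by
    intro g h
    rw [← hx g h]
    simp only [hx'def, map_sub, map_mul, Module.End.mul_apply]
    abel
  have hx'Z : ∀ z : Γ, χ z = 1 → x' z = 0 := by
    intro z hz
    simp only [hx'def]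
    rw [sub_eq_zero]
    exact hy z hz
  have h3a : ∀ g z : Γ, χ z = 1 → x' (g * z) = x' g := by
    intro g z hz
    have := hx' g z
    rw [hker z hz, carryNat_zero_right, zero_smul, hx'Z z hz, map_zero, zero_sub,
      neg_add_eq_zero] at this
    exact this
  have h3b : ∀ z g : Γ, χ z = 1 → x' (z * g) = C.ρ z (x' g) := by
    intro z g hz
    have := hx' z g
    rw [hker z hz, carryNat_zero_left, zero_smul, hx'Z z hz, add_zero, sub_eq_zero] at this
    exact this.symm
  have h4 : ∀ z g : Γ, χ z = 1 → C.ρ z (x' g) = x' g := by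
    intro z g hz
    rw [← h3b z g hz]
    have hconj : χ (g⁻¹ * z * g) = 1 := by
      rw [map_mul, map_mul, hz, mul_one, map_inv, inv_mul_cancel]
    have : z * g = g * (g⁻¹ * z * g) := by group
    rw [this, h3a g _ hconj]
  refine ⟨x' s, fun z hz => h4 z s hz, ?_⟩
  have hsum : ∑ i ∈ Finset.range n, (C.ρ (s ^ i) (x' s) - x' (s ^ i * s) + x' (s ^ i)) =
      ∑ i ∈ Finset.range n, carryNat n ((i : ℕ) : ZMod n) 1 • a := by
    refine Finset.sum_congr rfl fun i _ => ?_
    rw [hx' (s ^ i) s, chiVal_pow hs, hs]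
  rw [← Finset.sum_smul, sum_carryNat_natCast_one hn, one_smul] at hsum
  rw [← hsum]
  have htel : ∑ i ∈ Finset.range n, (x' (s ^ i) - x' (s ^ i * s)) = x' (s ^ 0) - x' (s ^ n) := by
    have := Finset.sum_range_sub' (fun i => x' (s ^ i)) n
    simp only [pow_succ] at this
    exact this
  have hsn : χ (s ^ n) = 1 := by
    have : chiVal χ (s ^ n) = 0 := by rw [chiVal_pow hs]; exact ZMod.natCast_self n
    exact this
  have e1 : ∑ i ∈ Finset.range n, (C.ρ (s ^ i) (x' s) - x' (s ^ i * s) + x' (s ^ i)) =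
      partialNorm C s (x' s) n + ∑ i ∈ Finset.range n, (x' (s ^ i) - x' (s ^ i * s)) := by
    unfold partialNorm
    rw [← Finset.sum_add_distrib]
    refine Finset.sum_congr rfl fun i _ => ?_
    abel
  rw [e1, htel, pow_zero, hx'Z 1 (map_one χ), hx'Z _ hsn, sub_zero, add_zero]

variable (C)

/-- the cochain `g ↦ χ(g) • g β` bounding `δχ ∪ b - χ ∪ κ_β` -/
def chiLift (χ : Γ →* Multiplicative (ZMod n)) (β : C) : Γ → C :=
  fun g => (chiVal χ g).val • C.ρ g β

/-- the cochain `g ↦ χ(g) • β` bounding `δχ ∪ b + κ_β ∪ χ` -/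
def chiLift' (χ : Γ →* Multiplicative (ZMod n)) (β : C) : Γ → C :=
  fun g => (chiVal χ g).val • β

variable {C}

theorem d_chiLift (χ : Γ →* Multiplicative (ZMod n)) {β : C}
    (hβ : ∀ g : Γ, C.ρ g (n • β) = n • β) (g h : Γ) :
    C.ρ g (chiLift C χ β h) - chiLift C χ β (g * h) + chiLift C χ β g =
      carry C χ (n • β) (g, h) - chiCupKum C χ β (g, h) := by
  simp only [chiLift, carry_apply, chiCupKum_apply, kum_apply, map_nsmul, map_sub, chiVal_mul]
  have hv := val_add_val n (chiVal χ g) (chiVal χ h)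
  have hgh : C.ρ g (C.ρ h β) = C.ρ (g * h) β := by rw [map_mul]; rfl
  rw [hgh]
  set i := (chiVal χ g).val
  set j := (chiVal χ h).val
  set l := (chiVal χ g + chiVal χ h).val
  set c := carryNat n (chiVal χ g) (chiVal χ h)
  set B := C.ρ (g * h) β
  have hnB : n • B = n • β := by
    show n • C.ρ (g * h) β = n • β
    rw [← map_nsmul, hβ]
  have key : i • B + j • B = l • B + c • (n • β) := by
    rw [← hnB, ← mul_nsmul, ← add_nsmul, ← add_nsmul, hv, mul_comm]
  rw [nsmul_sub]
  have : j • B = l • B + c • (n • β) - i • B := by rw [← key]; abel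
  rw [this]
  abel

theorem d_chiLift' (χ : Γ →* Multiplicative (ZMod n)) (β : C) (g h : Γ) :
    C.ρ g (chiLift' C χ β h) - chiLift' C χ β (g * h) + chiLift' C χ β g =
      carry C χ (n • β) (g, h) + kumCupChi C χ β (g, h) := by
  simp only [chiLift', carry_apply, kumCupChi_apply, kum_apply, map_nsmul, chiVal_mul]
  have hv := val_add_val n (chiVal χ g) (chiVal χ h)
  set i := (chiVal χ g).val
  set j := (chiVal χ h).val
  set l := (chiVal χ g + chiVal χ h).val
  set c := carryNat n (chiVal χ g) (chiVal χ h)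
  have key : i • β + j • β = l • β + c • (n • β) := by
    rw [← mul_nsmul, ← add_nsmul, ← add_nsmul, hv, mul_comm]
  rw [nsmul_sub]
  have : i • β = l • β + c • (n • β) - j • β := by rw [← key]; abel
  rw [this]
  abel

lemma chiVal_eq_zero_of_mem_ker {χ : Γ →* Multiplicative (ZMod n)} {z : Γ} (hz : χ z = 1) :
    chiVal χ z = 0 := by
  show Multiplicative.toAdd (χ z) = 0
  rw [hz]; rfl

/-- **Norm criterion with an explicit bounding cochain** (`χ ∪ κ_β = d x`, and `x` restricted to
`ker χ` is the coboundary of `y`). -/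
theorem exists_norm_of_chiCupKum_eq_d {χ : Γ →* Multiplicative (ZMod n)} {s : Γ}
    (hs : chiVal χ s = 1) {β : C} (hβ : ∀ g : Γ, C.ρ g (n • β) = n • β) (x : Γ → C)
    (hx : ∀ g h : Γ, C.ρ g (x h) - x (g * h) + x g = chiCupKum C χ β (g, h))
    (y : C) (hy : ∀ z : Γ, χ z = 1 → x z = C.ρ z y - y) :
    ∃ b : C, (∀ z : Γ, χ z = 1 → C.ρ z b = b) ∧ n • β = partialNorm C s b n := by
  refine exists_norm_of_carry_eq_d hs hβ (fun g => x g + chiLift C χ β g) (fun g h => ?_) y
    (fun z hz => ?_)
  · have h1 := d_chiLift χ hβ g h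
    have h2 := hx g h
    simp only [map_add]
    rw [← sub_add_cancel (carry C χ (n • β) (g, h)) (chiCupKum C χ β (g, h)), ← h1, ← h2]
    abel
  · simp only [chiLift, chiVal_eq_zero_of_mem_ker hz, ZMod.val_zero, zero_smul, add_zero]
    exact hy z hz

/-- The same for `κ_β ∪ χ = d x`. -/
theorem exists_norm_of_kumCupChi_eq_d {χ : Γ →* Multiplicative (ZMod n)} {s : Γ}
    (hs : chiVal χ s = 1) {β : C} (hβ : ∀ g : Γ, C.ρ g (n • β) = n • β) (x : Γ → C)
    (hx : ∀ g h : Γ, C.ρ g (x h) - x (g * h) + x g = kumCupChi C χ β (g, h))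
    (y : C) (hy : ∀ z : Γ, χ z = 1 → x z = C.ρ z y - y) :
    ∃ b : C, (∀ z : Γ, χ z = 1 → C.ρ z b = b) ∧ n • β = partialNorm C s b n := by
  refine exists_norm_of_carry_eq_d hs hβ (fun g => chiLift' C χ β g - x g) (fun g h => ?_) (-y)
    (fun z hz => ?_)
  · have h1 := d_chiLift' χ β g h
    have h2 := hx g h
    simp only [map_sub]
    rw [← add_sub_cancel_right (carry C χ (n • β) (g, h)) (kumCupChi C χ β (g, h)), ← h1, ← h2]
    abel
  · simp only [chiLift', chiVal_eq_zero_of_mem_ker hz, ZMod.val_zero, zero_smul, zero_sub,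
      map_neg]
    rw [hy z hz]
    abel

end Fermat.Agent.S55.LocHilbert21
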