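/-
S55 / 47d-LOC-HILBERT (helper21), file 4: the local norm-residue symbol for an arbitrary (possibly
infinite) Galois extension `Ω/K`, at INFINITE level and model-independent.

`G = Gal(Ω/K) = Ω ≃ₐ[K] Ω` as an abstract group; `IsLC f` : `f` is constant modulo the fixing
subgroup of a finite subextension (same shape as the Prelude's `IsLevelConstant₁`).

* `prod_pow_eq_norm` : for a continuous `χ : G → ℤ/n` with `χ(s) = 1`, the norm from the fixed field
  of `ker χ` is `∏_{i<n} s^i`.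
* `exists_norm_of_symbol` / `exists_norm_of_symbol'` : if `χ ∪ κ_β` (resp. `κ_β ∪ χ`), `β^n = b ∈ Kˣ`,
  is the coboundary of a level cochain `G → Ωˣ`, then `b` is a norm from the fixed field of `ker χ`.
* `exists_symbol_ne_zero` : NON-DEGENERACY of the local pairing, given the local norm index
  theorem `(NI)` as a hypothesis (producer: `LocH95.index_norm_range`).
* `exists_kummer_of_char`, `mem_range_pow_of_fixed` : Kummer theory at infinite level
  (`H¹(G, μ_n) = Kˣ/n`), for the dimension count.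
-/
import Mathlib
import Fermat.Agent.S55.LocHilbert21.Norm
import Fermat.Agent.S55.LocHilbert21.H90

set_option autoImplicit false
set_option linter.unusedSectionVars false
set_option linter.style.haveILetI false

namespace Fermat.Agent.S55.LocHilbert21
open Fermat.Agent.S55.GlobalInv91

variable {K Ω : Type} [Field K] [Field Ω] [Algebra K Ω]

/-- level-constant functions on `Gal(Ω/K)` -/
def IsLC {X : Type*} (f : (Ω ≃ₐ[K] Ω) → X) : Prop :=
  ∃ F : IntermediateField K Ω, FiniteDimensional K F ∧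
    ∀ g s : Ω ≃ₐ[K] Ω, s ∈ F.fixingSubgroup → f (g * s) = f g

section Bridge

variable (K Ω) in
/-- the `ℤ`-representation of `Gal(Ω/K)` on `Ωˣ` -/
abbrev UR : Rep ℤ (Ω ≃ₐ[K] Ω) := Rep.ofAlgebraAutOnUnits K Ω

/-- `Ωˣ → UR K Ω` (additive notation) -/
def ofU (u : Ωˣ) : UR K Ω := Rep.toAdditive.symm (Additive.ofMul u)

/-- `UR K Ω → Ωˣ` -/
def toU (c : UR K Ω) : Ωˣ := Additive.toMul (Rep.toAdditive c)

@[simp] theorem toU_ofU (u : Ωˣ) : toU (ofU (K := K) u) = u := rfl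
@[simp] theorem ofU_toU (c : UR K Ω) : ofU (toU c) = c := rfl
theorem ofU_mul (u v : Ωˣ) : ofU (K := K) (u * v) = ofU u + ofU v := rfl
theorem ofU_div (u v : Ωˣ) : ofU (K := K) (u / v) = ofU u - ofU v := rfl
theorem ofU_pow (u : Ωˣ) (m : ℕ) : ofU (K := K) (u ^ m) = m • ofU u := rfl
theorem ofU_one : ofU (K := K) (1 : Ωˣ) = 0 := rfl
theorem rho_ofU (g : Ω ≃ₐ[K] Ω) (u : Ωˣ) : (UR K Ω).ρ g (ofU u) = ofU (g • u) := rfl
theorem ofU_injective : Function.Injective (ofU (K := K) (Ω := Ω)) := fun _ _ h => h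
theorem toU_sum {ι : Type*} (s : Finset ι) (f : ι → UR K Ω) :
    toU (∑ i ∈ s, f i) = ∏ i ∈ s, toU (f i) := by
  classical
  induction s using Finset.induction_on with
  | empty => rfl
  | insert a s ha ih =>
    rw [Finset.sum_insert ha, Finset.prod_insert ha, ← ih]
    rfl

end Bridge

section Open

variable [IsGalois K Ω] {n : ℕ} [NeZero n]

theorem exists_le_ker {χ : (Ω ≃ₐ[K] Ω) →* Multiplicative (ZMod n)} (hχ : IsLC χ) :
    ∃ F : IntermediateField K Ω, FiniteDimensional K F ∧ F.fixingSubgroup ≤ χ.ker := by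
  obtain ⟨F, hF, h⟩ := hχ
  refine ⟨F, hF, fun s hs => ?_⟩
  have := h 1 s hs
  rw [one_mul, map_one] at this
  exact this

theorem isOpen_ker {χ : (Ω ≃ₐ[K] Ω) →* Multiplicative (ZMod n)} (hχ : IsLC χ) :
    IsOpen (χ.ker : Set (Ω ≃ₐ[K] Ω)) := by
  obtain ⟨F, hF, h⟩ := exists_le_ker hχ
  exact Subgroup.isOpen_mono h (IntermediateField.fixingSubgroup_isOpen F)

/-- `ker χ` as a closed subgroup -/
def kerClosed {χ : (Ω ≃ₐ[K] Ω) →* Multiplicative (ZMod n)} (hχ : IsLC χ) :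
    ClosedSubgroup (Ω ≃ₐ[K] Ω) :=
  ⟨χ.ker, Subgroup.isClosed_of_isOpen _ (isOpen_ker hχ)⟩

theorem fixingSubgroup_fixedField_ker {χ : (Ω ≃ₐ[K] Ω) →* Multiplicative (ZMod n)} (hχ : IsLC χ) :
    (IntermediateField.fixedField χ.ker).fixingSubgroup = χ.ker :=
  InfiniteGalois.fixingSubgroup_fixedField (kerClosed hχ)

theorem finiteDimensional_fixedField_ker {χ : (Ω ≃ₐ[K] Ω) →* Multiplicative (ZMod n)}
    (hχ : IsLC χ) : FiniteDimensional K (IntermediateField.fixedField χ.ker) := by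
  rw [← InfiniteGalois.isOpen_iff_finite, fixingSubgroup_fixedField_ker hχ]
  exact isOpen_ker hχ

theorem isGalois_fixedField_ker {χ : (Ω ≃ₐ[K] Ω) →* Multiplicative (ZMod n)}
    (hχ : IsLC χ) : IsGalois K (IntermediateField.fixedField χ.ker) := by
  rw [← InfiniteGalois.normal_iff_isGalois, fixingSubgroup_fixedField_ker hχ]
  infer_instance

/-- The norm from the fixed field of `ker χ` is the product over the powers of a lift `s` of the
generator. -/
theorem prod_pow_eq_norm {χ : (Ω ≃ₐ[K] Ω) →* Multiplicative (ZMod n)} (hχ : IsLC χ)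
    {s : Ω ≃ₐ[K] Ω} (hs : chiVal χ s = 1) (y : IntermediateField.fixedField χ.ker) :
    ∏ i ∈ Finset.range n, (s ^ i) (y : Ω) = algebraMap K Ω (Algebra.norm K y) := by
  classical
  have : FiniteDimensional K (IntermediateField.fixedField χ.ker) :=
    finiteDimensional_fixedField_ker hχ
  have : IsGalois K (IntermediateField.fixedField χ.ker) := isGalois_fixedField_ker hχ
  generalize hL : IntermediateField.fixedField χ.ker = L at *
  have hker : (AlgEquiv.restrictNormalHom L : (Ω ≃ₐ[K] Ω) →* (L ≃ₐ[K] L)).ker = χ.ker := by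
    rw [IntermediateField.restrictNormalHom_ker, ← hL, fixingSubgroup_fixedField_ker hχ]
  have hcomm : ∀ (g : Ω ≃ₐ[K] Ω) (z : L),
      ((AlgEquiv.restrictNormalHom L g) z : Ω) = g (z : Ω) := fun g z =>
    AlgEquiv.restrictNormal_commutes g L z
  -- equality of restrictions
  have hres : ∀ g h : Ω ≃ₐ[K] Ω, AlgEquiv.restrictNormalHom L g = AlgEquiv.restrictNormalHom L h ↔
      χ g = χ h := by
    intro g h
    rw [← mul_inv_eq_one, ← map_inv, ← map_mul, ← MonoidHom.mem_ker, hker, MonoidHom.mem_ker,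
      map_mul, map_inv, mul_inv_eq_one]
  let f : Fin n → (L ≃ₐ[K] L) := fun i => AlgEquiv.restrictNormalHom L (s ^ (i : ℕ))
  have hχpow : ∀ i : ℕ, chiVal χ (s ^ i) = (i : ZMod n) := fun i => chiVal_pow hs i
  have hf : Function.Bijective f := by
    constructor
    · intro i j hij
      have h1 : χ (s ^ (i : ℕ)) = χ (s ^ (j : ℕ)) := (hres _ _).1 hij
      have h2 : ((i : ℕ) : ZMod n) = ((j : ℕ) : ZMod n) := by
        rw [← hχpow, ← hχpow]
        exact congrArg Multiplicative.toAdd h1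
      have h3 := congrArg ZMod.val h2
      rw [ZMod.val_natCast_of_lt i.2, ZMod.val_natCast_of_lt j.2] at h3
      exact Fin.ext h3
    · intro τ
      obtain ⟨g, rfl⟩ := AlgEquiv.restrictNormalHom_surjective Ω τ
      refine ⟨⟨(chiVal χ g).val, ZMod.val_lt _⟩, ?_⟩
      show AlgEquiv.restrictNormalHom L (s ^ (chiVal χ g).val) = _
      rw [hres]
      have : chiVal χ (s ^ (chiVal χ g).val) = chiVal χ g := by
        rw [hχpow, ZMod.natCast_zmod_val]
      exact congrArg Multiplicative.ofAdd this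
  have h1 : algebraMap K L (Algebra.norm K y) = ∏ σ : L ≃ₐ[K] L, σ y :=
    Algebra.norm_eq_prod_automorphisms K y
  have h2 : ∏ σ : L ≃ₐ[K] L, σ y = ∏ i : Fin n, f i y :=
    (Fintype.prod_bijective f hf _ _ (fun _ => rfl)).symm
  rw [IsScalarTower.algebraMap_apply K L Ω, h1, h2, map_prod, ← Fin.prod_univ_eq_prod_range]
  refine Finset.prod_congr rfl fun i _ => ?_
  exact (hcomm (s ^ (i : ℕ)) y).symm

/-! ### The main theorem -/

/-- invariance of `β ^ n` when it lies in `K` -/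
theorem smul_pow_eq_of_pow_mem {β : Ωˣ} {b : Kˣ} (hβ : (β : Ω) ^ n = algebraMap K Ω b)
    (g : Ω ≃ₐ[K] Ω) : g • β ^ n = β ^ n := by
  apply Units.ext
  rw [AlgEquiv.smul_units_def, Units.coe_map, Units.val_pow_eq_pow_val, hβ]
  exact g.commutes _

theorem rho_nsmul_ofU {β : Ωˣ} {b : Kˣ} (hβ : (β : Ω) ^ n = algebraMap K Ω b)
    (g : Ω ≃ₐ[K] Ω) : (UR K Ω).ρ g (n • ofU β) = n • ofU β := by
  rw [← ofU_pow, rho_ofU, smul_pow_eq_of_pow_mem hβ]

/-- common part: from the abstract conclusion to the norm statement -/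
theorem exists_norm_aux {χ : (Ω ≃ₐ[K] Ω) →* Multiplicative (ZMod n)} (hχ : IsLC χ)
    {s : Ω ≃ₐ[K] Ω} (hs : chiVal χ s = 1) {β : Ωˣ} {b : Kˣ}
    (hβ : (β : Ω) ^ n = algebraMap K Ω b)
    (h : ∃ c : UR K Ω, (∀ z : Ω ≃ₐ[K] Ω, χ z = 1 → (UR K Ω).ρ z c = c) ∧
        n • ofU β = partialNorm (UR K Ω) s c n) :
    ∃ y : IntermediateField.fixedField χ.ker, Algebra.norm K y = (b : K) := by
  obtain ⟨c, hc, hN⟩ := h
  set y₀ : Ωˣ := toU c with hy₀
  have hfix : ∀ z : Ω ≃ₐ[K] Ω, z ∈ χ.ker → z (y₀ : Ω) = (y₀ : Ω) := by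
    intro z hz
    have h1 : ofU (z • y₀) = ofU (K := K) y₀ := hc z hz
    have h2 : z • y₀ = y₀ := ofU_injective h1
    have h3 := congrArg (fun u : Ωˣ => (u : Ω)) h2
    simpa [AlgEquiv.smul_units_def] using h3
  have hmem : (y₀ : Ω) ∈ IntermediateField.fixedField χ.ker := by
    rw [IntermediateField.mem_fixedField_iff]
    exact hfix
  refine ⟨⟨(y₀ : Ω), hmem⟩, ?_⟩
  apply (algebraMap K Ω).injective
  rw [← prod_pow_eq_norm hχ hs, ← hβ]
  have h4 : β ^ n = ∏ i ∈ Finset.range n, (s ^ i) • y₀ := by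
    have h5 : toU (n • ofU (K := K) β) = toU (partialNorm (UR K Ω) s c n) := congrArg toU hN
    rw [← ofU_pow, toU_ofU] at h5
    rw [h5]
    unfold partialNorm
    rw [toU_sum]
    rfl
  have h6 := congrArg (fun u : Ωˣ => (u : Ω)) h4
  simp only [Units.val_pow_eq_pow_val, Units.coe_prod] at h6
  rw [h6]
  refine (Finset.prod_congr rfl fun i _ => ?_).symm
  simp [AlgEquiv.smul_units_def]

/-- Hilbert 90 on `ker χ` for the restriction of a level cochain. -/
theorem exists_cob_on_ker {χ : (Ω ≃ₐ[K] Ω) →* Multiplicative (ZMod n)} (x : (Ω ≃ₐ[K] Ω) → Ωˣ)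
    (hx : IsLC x)
    (hcoc : ∀ σ τ : Ω ≃ₐ[K] Ω, χ σ = 1 → χ τ = 1 → x (σ * τ) = x σ * (σ • x τ)) :
    ∃ y : UR K Ω, ∀ z : Ω ≃ₐ[K] Ω, χ z = 1 → ofU (x z) = (UR K Ω).ρ z y - y := by
  obtain ⟨F, hF, hc⟩ := hx
  obtain ⟨b₀, hb₀⟩ := hilbert90_level (Γ := χ.ker) χ.ker.subtype (fun w => x w)
    (fun σ τ => hcoc σ τ σ.2 τ.2) F (fun σ s hs => hc σ s hs)
  refine ⟨ofU b₀, fun z hz => ?_⟩
  rw [rho_ofU, ← ofU_div]
  exact congrArg ofU (hb₀ ⟨z, hz⟩)

/-- **Norm criterion for the local symbol, `χ ∪ κ_β`.**  `Ω/K` Galois (possibly infinite),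
`χ : Gal(Ω/K) → ℤ/n` a continuous character, `s` with `χ(s) = 1`, `β ^ n = b ∈ Kˣ`.  If the
2-cocycle `(g, h) ↦ (g (h β / β)) ^ χ(g)` is the coboundary of a level cochain `x : Gal(Ω/K) → Ωˣ`,
then `b` is a norm from the fixed field of `ker χ`. -/
theorem exists_norm_of_symbol (χ : (Ω ≃ₐ[K] Ω) →* Multiplicative (ZMod n)) (hχ : IsLC χ)
    (s : Ω ≃ₐ[K] Ω) (hs : chiVal χ s = 1) (β : Ωˣ) (b : Kˣ)
    (hβ : (β : Ω) ^ n = algebraMap K Ω b) (x : (Ω ≃ₐ[K] Ω) → Ωˣ) (hx : IsLC x)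
    (hd : ∀ g h : Ω ≃ₐ[K] Ω,
      g • x h / x (g * h) * x g = (g • (h • β / β)) ^ (chiVal χ g).val) :
    ∃ y : IntermediateField.fixedField χ.ker, Algebra.norm K y = (b : K) := by
  apply exists_norm_aux hχ hs hβ
  have hcoc : ∀ σ τ : Ω ≃ₐ[K] Ω, χ σ = 1 → χ τ = 1 → x (σ * τ) = x σ * (σ • x τ) := by
    intro σ τ hσ _
    have := hd σ τ
    rw [chiVal_eq_zero_of_mem_ker hσ, ZMod.val_zero, pow_zero, div_mul_eq_mul_div,
      div_eq_one] at this
    rw [← this, mul_comm]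
  obtain ⟨y, hy⟩ := exists_cob_on_ker x hx hcoc
  refine exists_norm_of_chiCupKum_eq_d hs (rho_nsmul_ofU hβ) (fun g => ofU (x g)) (fun g h => ?_)
    y hy
  show (UR K Ω).ρ g (ofU (x h)) - ofU (x (g * h)) + ofU (x g) = _
  rw [rho_ofU, ← ofU_div, ← ofU_mul, hd g h]
  rfl

/-- **Norm criterion for the local symbol, `κ_β ∪ χ`.** -/
theorem exists_norm_of_symbol' (χ : (Ω ≃ₐ[K] Ω) →* Multiplicative (ZMod n)) (hχ : IsLC χ)
    (s : Ω ≃ₐ[K] Ω) (hs : chiVal χ s = 1) (β : Ωˣ) (b : Kˣ)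
    (hβ : (β : Ω) ^ n = algebraMap K Ω b) (x : (Ω ≃ₐ[K] Ω) → Ωˣ) (hx : IsLC x)
    (hd : ∀ g h : Ω ≃ₐ[K] Ω,
      g • x h / x (g * h) * x g = (g • β / β) ^ (chiVal χ h).val) :
    ∃ y : IntermediateField.fixedField χ.ker, Algebra.norm K y = (b : K) := by
  apply exists_norm_aux hχ hs hβ
  have hcoc : ∀ σ τ : Ω ≃ₐ[K] Ω, χ σ = 1 → χ τ = 1 → x (σ * τ) = x σ * (σ • x τ) := by
    intro σ τ _ hτ
    have := hd σ τ
    rw [chiVal_eq_zero_of_mem_ker hτ, ZMod.val_zero, pow_zero, div_mul_eq_mul_div,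
      div_eq_one] at this
    rw [← this, mul_comm]
  obtain ⟨y, hy⟩ := exists_cob_on_ker x hx hcoc
  refine exists_norm_of_kumCupChi_eq_d hs (rho_nsmul_ofU hβ) (fun g => ofU (x g)) (fun g h => ?_)
    y hy
  show (UR K Ω).ρ g (ofU (x h)) - ofU (x (g * h)) + ofU (x g) = _
  rw [rho_ofU, ← ofU_div, ← ofU_mul, hd g h]
  rfl

/-! ### Non-degeneracy -/

section Nondeg

variable {p : ℕ} [hp : Fact p.Prime]

/-- a nontrivial character to `ℤ/p` takes the value `1` -/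
theorem exists_chiVal_eq_one {χ : (Ω ≃ₐ[K] Ω) →* Multiplicative (ZMod p)} (hne : χ ≠ 1) :
    ∃ s : Ω ≃ₐ[K] Ω, chiVal χ s = 1 := by
  obtain ⟨g, hg⟩ : ∃ g, χ g ≠ 1 := by
    by_contra h
    push Not at h
    exact hne (MonoidHom.ext h)
  have hg0 : chiVal χ g ≠ 0 := fun h0 => hg (congrArg Multiplicative.ofAdd h0)
  refine ⟨g ^ ((chiVal χ g)⁻¹).val, ?_⟩
  have h1 : chiVal χ (g ^ ((chiVal χ g)⁻¹).val) = (((chiVal χ g)⁻¹).val : ZMod p) * chiVal χ g := by
    show Multiplicative.toAdd (χ (g ^ _)) = _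
    rw [map_pow, toAdd_pow, nsmul_eq_mul]
  rw [h1, ZMod.natCast_zmod_val, inv_mul_cancel₀ hg0]

/-- the fixed field of the kernel of a nontrivial continuous character to `ℤ/p` has degree `p` -/
theorem finrank_fixedField_ker {χ : (Ω ≃ₐ[K] Ω) →* Multiplicative (ZMod p)} (hχ : IsLC χ)
    {s : Ω ≃ₐ[K] Ω} (hs : chiVal χ s = 1) :
    Module.finrank K (IntermediateField.fixedField χ.ker) = p := by
  haveI : NeZero p := ⟨hp.out.ne_zero⟩
  rw [IntermediateField.finrank_eq_fixingSubgroup_index, fixingSubgroup_fixedField_ker hχ,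
    Subgroup.index_ker]
  have hsurj : Function.Surjective χ := by
    intro j
    refine ⟨s ^ (Multiplicative.toAdd j).val, ?_⟩
    have : chiVal χ (s ^ (Multiplicative.toAdd j).val) = Multiplicative.toAdd j := by
      rw [chiVal_pow hs, ZMod.natCast_zmod_val]
    exact congrArg Multiplicative.ofAdd this
  rw [MonoidHom.range_eq_top.2 hsurj, Subgroup.card_top, Nat.card_eq_fintype_card,
    Fintype.card_multiplicative]
  exact ZMod.card p

/-- **Non-degeneracy of the local norm-residue pairing** (model-independent form).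
`(NI)`: every Galois subextension `L/K` of `Ω` of degree `p` has a non-norm `b ∈ Kˣ` (local norm
index theorem, `LocH95.index_norm_range`); `(root)`: `Ω` contains `p`-th roots of the elements of
`Kˣ`.  Then for every nontrivial continuous character `χ : Gal(Ω/K) → ℤ/p` there is `b = β ^ p ∈ Kˣ`
such that neither `χ ∪ κ_β` nor `κ_β ∪ χ` is the coboundary of a level cochain with values in `Ωˣ`
(a fortiori not of a level cochain with values in `μ_p`). -/
theorem exists_symbol_ne_zero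
    (hNI : ∀ L : IntermediateField K Ω, FiniteDimensional K L → IsGalois K L →
      Module.finrank K L = p → ∃ b : Kˣ, ∀ y : L, Algebra.norm K y ≠ (b : K))
    (hroot : ∀ b : Kˣ, ∃ β : Ωˣ, (β : Ω) ^ p = algebraMap K Ω b)
    (χ : (Ω ≃ₐ[K] Ω) →* Multiplicative (ZMod p)) (hχ : IsLC χ) (hne : χ ≠ 1) :
    ∃ (b : Kˣ) (β : Ωˣ), (β : Ω) ^ p = algebraMap K Ω b ∧
      (∀ x : (Ω ≃ₐ[K] Ω) → Ωˣ, IsLC x → ¬ ∀ g h : Ω ≃ₐ[K] Ω,
        g • x h / x (g * h) * x g = (g • (h • β / β)) ^ (chiVal χ g).val) ∧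
      (∀ x : (Ω ≃ₐ[K] Ω) → Ωˣ, IsLC x → ¬ ∀ g h : Ω ≃ₐ[K] Ω,
        g • x h / x (g * h) * x g = (g • β / β) ^ (chiVal χ h).val) := by
  haveI : NeZero p := ⟨hp.out.ne_zero⟩
  obtain ⟨s, hs⟩ := exists_chiVal_eq_one hne
  obtain ⟨b, hb⟩ := hNI (IntermediateField.fixedField χ.ker) (finiteDimensional_fixedField_ker hχ)
    (isGalois_fixedField_ker hχ) (finrank_fixedField_ker hχ hs)
  obtain ⟨β, hβ⟩ := hroot b
  refine ⟨b, β, hβ, fun x hx hd => ?_, fun x hx hd => ?_⟩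
  · obtain ⟨y, hy⟩ := exists_norm_of_symbol χ hχ s hs β b hβ x hx hd
    exact hb y hy
  · obtain ⟨y, hy⟩ := exists_norm_of_symbol' χ hχ s hs β b hβ x hx hd
    exact hb y hy

end Nondeg

/-! ### Kummer theory at infinite level -/

section Kummer

/-- **Kummer surjectivity**: every continuous character `c : Gal(Ω/K) → μ_n(K)` is `g ↦ g β / β`
for some `β ∈ Ωˣ` with `β ^ n ∈ Kˣ`. -/
theorem exists_kummer_of_char (c : (Ω ≃ₐ[K] Ω) →* Kˣ) (hc : IsLC c) (hcn : ∀ g, c g ^ n = 1) :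
    ∃ (β : Ωˣ) (b : Kˣ), (β : Ω) ^ n = algebraMap K Ω b ∧
      ∀ g : Ω ≃ₐ[K] Ω, g • β / β = Units.map (algebraMap K Ω : K →* Ω) (c g) := by
  obtain ⟨F, hF, hcF⟩ := hc
  have hfix : ∀ (g : Ω ≃ₐ[K] Ω) (u : Kˣ), g • Units.map (algebraMap K Ω : K →* Ω) u =
      Units.map (algebraMap K Ω : K →* Ω) u := by
    intro g u
    apply Units.ext
    rw [AlgEquiv.smul_units_def, Units.coe_map, Units.coe_map]
    exact g.commutes _
  obtain ⟨β, hβ⟩ := hilbert90_level (Γ := Ω ≃ₐ[K] Ω) (MonoidHom.id _)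
    (fun g => Units.map (algebraMap K Ω : K →* Ω) (c g))
    (fun σ τ => by
      show Units.map _ (c (σ * τ)) = Units.map _ (c σ) * (σ • Units.map _ (c τ))
      rw [hfix, map_mul, map_mul]) F
    (fun σ s hs => by
      show Units.map _ (c (σ * s)) = Units.map _ (c σ)
      rw [hcF σ s hs])
  have hβ' : ∀ g : Ω ≃ₐ[K] Ω, g • β / β = Units.map (algebraMap K Ω : K →* Ω) (c g) :=
    fun g => (hβ g).symm
  -- `β ^ n` is fixed, hence in `K`
  have hfixn : ∀ g : Ω ≃ₐ[K] Ω, g ((β : Ω) ^ n) = (β : Ω) ^ n := by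
    intro g
    have h1 : (g • β / β) ^ n = 1 := by rw [hβ' g, ← map_pow, hcn g, map_one]
    rw [div_pow, div_eq_one, ← smul_pow'] at h1
    have h2 := congrArg (fun u : Ωˣ => (u : Ω)) h1
    simpa [AlgEquiv.smul_units_def] using h2
  obtain ⟨a, ha⟩ := (InfiniteGalois.mem_range_algebraMap_iff_fixed ((β : Ω) ^ n)).2 hfixn
  have ha0 : a ≠ 0 := by
    rintro rfl
    rw [map_zero] at ha
    exact pow_ne_zero n β.ne_zero ha.symm
  exact ⟨β, Units.mk0 a ha0, ha.symm, hβ'⟩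

/-- **Kummer injectivity**: if `β ^ n = b` and `β` is Galois-fixed then `b` is an `n`-th power. -/
theorem mem_range_pow_of_fixed {β : Ωˣ} {b : Kˣ} (hβ : (β : Ω) ^ n = algebraMap K Ω b)
    (hfix : ∀ g : Ω ≃ₐ[K] Ω, g • β = β) : b ∈ (powMonoidHom n : Kˣ →* Kˣ).range := by
  have h1 : ∀ g : Ω ≃ₐ[K] Ω, g (β : Ω) = (β : Ω) := by
    intro g
    have h2 := congrArg (fun u : Ωˣ => (u : Ω)) (hfix g)
    simpa [AlgEquiv.smul_units_def] using h2
  obtain ⟨a, ha⟩ := (InfiniteGalois.mem_range_algebraMap_iff_fixed (β : Ω)).2 h1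
  have ha0 : a ≠ 0 := by
    rintro rfl
    rw [map_zero] at ha
    exact β.ne_zero ha.symm
  refine ⟨Units.mk0 a ha0, Units.ext ?_⟩
  apply (algebraMap K Ω).injective
  rw [powMonoidHom_apply, Units.val_pow_eq_pow_val, Units.val_mk0, map_pow, ha, hβ]

end Kummer

end Open

end Fermat.Agent.S55.LocHilbert21
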