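/-
S55 / 47d-LOC-HILBERT (helper21), file 5: NON-DEGENERACY OF THE LOCAL CUP PRODUCT in the level
cohomology vocabulary (`Profin15.LevelStr`, `LevelCup47.cupH11`, `KummerBr95.galLevels`).

`Ω/K` Galois (possibly infinite), `K ∋ ζ_p`, `G = Gal(Ω/K)` with the Krull level structure
`galLevels K Ω`, trivial coefficients `𝔽_p` (`= μ_p` since `ζ_p ∈ K`), multiplication pairing.
Given the local norm index hypothesis `(NI)` (producer: `LocField17.index_norm_range_rel` /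
`LocH95.index_norm_range`) and `p`-th roots in `Ω`:

* `exists_cupH11_ne_zero` : for `x ≠ 0` in `H¹` there is `y` with `x ∪ y ≠ 0` and `y ∪ x ≠ 0`
  in `H²(galLevels K Ω; 𝔽_p)`;
* `separating_of_injective` : `Λ ∘ ∪` is `SeparatingLeft` and `SeparatingRight` for every injective
  `Λ : H² → 𝔽_p` (the shape of `hnd` in `LevelCup47.Iso.le_finrank_sha1` /
  `CountWire96.finrank_sha2_le_finrank_sha1`).
-/
import Fermat.Agent.S55.LocHilbert21.Galois
import Fermat.Agent.S55.LevelCup47.Cup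
import Fermat.Agent.S55.KummerBr95.GalLevels

set_option autoImplicit false
set_option linter.unusedSectionVars false
set_option linter.style.haveILetI false

open CategoryTheory groupCohomology

namespace Fermat.Agent.S55.LocHilbert21

open Fermat.Agent.S55.Profin15 Fermat.Agent.S55.Cup90 Fermat.Agent.S55.LevelCup47
  Fermat.Agent.S55.KummerBr95 Fermat.Agent.S55.GlobalInv91

variable {K Ω : Type} [Field K] [Field Ω] [Algebra K Ω] [IsGalois K Ω]

/-! ### `IsLC` is level-constancy for `galLevels` -/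

theorem isLC_iff_isConst₁ {X : Type*} (f : (Ω ≃ₐ[K] Ω) → X) :
    IsLC f ↔ (galLevels K Ω).IsConst₁ f := by
  constructor
  · rintro ⟨F, hF, h⟩
    haveI := hF
    obtain ⟨U, hU, hle⟩ := exists_galLevel_le F
    exact ⟨U, hU, fun g s hs => h g s (hle hs)⟩
  · rintro ⟨U, ⟨-, E, hE, rfl⟩, h⟩
    exact ⟨E, hE, h⟩

variable (K Ω) (p : ℕ) [hp : Fact p.Prime]

/-- the trivial representation of `Gal(Ω/K)` on `𝔽_p` -/
abbrev trivRep : Rep.{0} (ZMod p) (Ω ≃ₐ[K] Ω) := Rep.trivial (ZMod p) (Ω ≃ₐ[K] Ω) (ZMod p)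

/-- multiplication `𝔽_p × 𝔽_p → 𝔽_p` as a pairing of trivial representations -/
def mulPairing : Pairing (trivRep K Ω p) (trivRep K Ω p) (trivRep K Ω p) where
  toLin := LinearMap.mul (ZMod p) (ZMod p)
  map_smul' := fun _ _ _ => rfl

theorem isSmooth_trivRep : (galLevels K Ω).IsSmooth (trivRep K Ω p) := fun _ => by
  obtain ⟨U, hU⟩ := (galLevels K Ω).nonempty
  exact ⟨U, hU, fun _ _ => rfl⟩

variable {K Ω p}

/-- a `1`-cocycle with trivial coefficients as a character -/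
def charOfCocycle (a : (Ω ≃ₐ[K] Ω) → ZMod p) (ha : a ∈ cocycles₁ (trivRep K Ω p)) :
    (Ω ≃ₐ[K] Ω) →* Multiplicative (ZMod p) where
  toFun g := Multiplicative.ofAdd (a g)
  map_one' := by
    have h := (mem_cocycles₁_iff (A := trivRep K Ω p) a).1 ha (1 : Ω ≃ₐ[K] Ω) 1
    rw [mul_one] at h
    have h0 : a 1 = 0 := by
      have : a 1 = a 1 + a 1 := h
      exact left_eq_add.mp this
    rw [h0]; rfl
  map_mul' g h := by
    have h' := (mem_cocycles₁_iff (A := trivRep K Ω p) a).1 ha g h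
    have h'' : a (g * h) = a h + a g := h'
    rw [h'', add_comm]; rfl

@[simp] theorem chiVal_charOfCocycle (a : (Ω ≃ₐ[K] Ω) → ZMod p)
    (ha : a ∈ cocycles₁ (trivRep K Ω p)) (g : Ω ≃ₐ[K] Ω) :
    chiVal (charOfCocycle a ha) g = a g := rfl

/-! ### The exponential `𝔽_p → μ_p(Ω)` attached to a primitive root of unity -/

section Exp

variable {ζ : K} (hζ : IsPrimitiveRoot ζ p)

include hζ in
theorem isPrimitiveRoot_map : IsPrimitiveRoot (algebraMap K Ω ζ) p :=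
  hζ.map_of_injective (algebraMap K Ω).injective

/-- `ζ` as a unit of `Ω` -/
def zetaU : Ωˣ := Units.mk0 (algebraMap K Ω ζ)
  ((isPrimitiveRoot_map (Ω := Ω) hζ).ne_zero hp.out.ne_zero)

theorem zetaU_pow : zetaU (Ω := Ω) hζ ^ p = 1 := by
  apply Units.ext
  rw [Units.val_pow_eq_pow_val, zetaU, Units.val_mk0, (isPrimitiveRoot_map (Ω := Ω) hζ).pow_eq_one]
  rfl

/-- `j ↦ ζ ^ j` -/
def expZ (j : ZMod p) : Ωˣ := zetaU (Ω := Ω) hζ ^ j.val

theorem expZ_natCast (m : ℕ) : expZ (Ω := Ω) hζ (m : ZMod p) = zetaU (Ω := Ω) hζ ^ m := by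
  rw [expZ, ZMod.val_natCast, ← pow_eq_pow_mod m (zetaU_pow hζ)]

theorem expZ_add (i j : ZMod p) :
    expZ (Ω := Ω) hζ (i + j) = expZ (Ω := Ω) hζ i * expZ (Ω := Ω) hζ j := by
  haveI : NeZero p := ⟨hp.out.ne_zero⟩
  rw [expZ, expZ, expZ, ← pow_add, ZMod.val_add, ← pow_eq_pow_mod _ (zetaU_pow hζ)]

theorem expZ_zero : expZ (Ω := Ω) hζ 0 = 1 := by
  rw [expZ, ZMod.val_zero, pow_zero]

theorem expZ_neg (i : ZMod p) : expZ (Ω := Ω) hζ (-i) = (expZ (Ω := Ω) hζ i)⁻¹ := by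
  rw [eq_inv_iff_mul_eq_one, ← expZ_add, neg_add_cancel, expZ_zero]

theorem expZ_sub (i j : ZMod p) :
    expZ (Ω := Ω) hζ (i - j) = expZ (Ω := Ω) hζ i / expZ (Ω := Ω) hζ j := by
  rw [sub_eq_add_neg, expZ_add, expZ_neg, div_eq_mul_inv]

theorem expZ_mul (i j : ZMod p) :
    expZ (Ω := Ω) hζ (i * j) = expZ (Ω := Ω) hζ j ^ i.val := by
  haveI : NeZero p := ⟨hp.out.ne_zero⟩
  rw [expZ, expZ, ← pow_mul, ZMod.val_mul, ← pow_eq_pow_mod _ (zetaU_pow hζ), mul_comm]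

theorem smul_expZ (g : Ω ≃ₐ[K] Ω) (j : ZMod p) : g • expZ (Ω := Ω) hζ j = expZ (Ω := Ω) hζ j := by
  rw [expZ, smul_pow']
  congr 1
  apply Units.ext
  rw [AlgEquiv.smul_units_def, Units.coe_map, zetaU, Units.val_mk0]
  exact g.commutes _

theorem expZ_injective : Function.Injective (expZ (Ω := Ω) hζ) := by
  haveI : NeZero p := ⟨hp.out.ne_zero⟩
  intro i j h
  have h1 : (algebraMap K Ω ζ) ^ i.val = (algebraMap K Ω ζ) ^ j.val := by
    have := congrArg (fun u : Ωˣ => (u : Ω)) h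
    simpa [expZ, zetaU] using this
  have h2 := (isPrimitiveRoot_map (Ω := Ω) hζ).pow_inj (ZMod.val_lt i) (ZMod.val_lt j) h1
  exact ZMod.val_injective p h2

theorem exists_expZ_eq {u : Ωˣ} (hu : u ^ p = 1) : ∃ j : ZMod p, expZ (Ω := Ω) hζ j = u := by
  have h1 : (u : Ω) ^ p = 1 := by
    rw [← Units.val_pow_eq_pow_val, hu]; rfl
  obtain ⟨i, -, hi⟩ := (isPrimitiveRoot_map (Ω := Ω) hζ).eq_pow_of_pow_eq_one h1
  refine ⟨(i : ZMod p), ?_⟩
  rw [expZ_natCast]
  apply Units.ext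
  rw [Units.val_pow_eq_pow_val, zetaU, Units.val_mk0, hi]

end Exp

/-! ### The Kummer character of `β` -/

section KummerChar

variable {ζ : K} (hζ : IsPrimitiveRoot ζ p) {β : Ωˣ} {b : Kˣ}
  (hβ : (β : Ω) ^ p = algebraMap K Ω b)

include hβ in
theorem kum_pow_eq_one (g : Ω ≃ₐ[K] Ω) : (g • β / β) ^ p = 1 := by
  haveI : NeZero p := ⟨hp.out.ne_zero⟩
  rw [div_pow, ← smul_pow', smul_pow_eq_of_pow_mem hβ, div_self']

/-- the additive Kummer character `bκ : Gal(Ω/K) → 𝔽_p`, `ζ ^ bκ(g) = g β / β` -/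
noncomputable def kumChar (g : Ω ≃ₐ[K] Ω) : ZMod p :=
  (exists_expZ_eq (Ω := Ω) hζ (kum_pow_eq_one hβ g)).choose

theorem expZ_kumChar (g : Ω ≃ₐ[K] Ω) : expZ (Ω := Ω) hζ (kumChar hζ hβ g) = g • β / β :=
  (exists_expZ_eq (Ω := Ω) hζ (kum_pow_eq_one hβ g)).choose_spec

theorem kumChar_mul (g h : Ω ≃ₐ[K] Ω) :
    kumChar hζ hβ (g * h) = kumChar hζ hβ g + kumChar hζ hβ h := by
  apply expZ_injective (Ω := Ω) hζ
  rw [expZ_add, expZ_kumChar, expZ_kumChar, expZ_kumChar]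
  have h1 : g • (h • β / β) = h • β / β := by
    rw [← expZ_kumChar hζ hβ h, smul_expZ]
  have h2 : (g * h) • β / β = g • (h • β / β) * (g • β / β) := by
    rw [smul_div', mul_smul, div_mul_div_cancel]
  rw [h2, h1, mul_comm]

theorem kumChar_mem_cocycles₁ : kumChar hζ hβ ∈ cocycles₁ (trivRep K Ω p) := by
  rw [mem_cocycles₁_iff]
  intro g h
  show kumChar hζ hβ (g * h) = kumChar hζ hβ h + kumChar hζ hβ g
  rw [kumChar_mul, add_comm]

theorem isLC_kumChar : IsLC (kumChar hζ hβ) := by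
  -- `β` is algebraic over `K`
  have halg : IsIntegral K (β : Ω) := Algebra.IsIntegral.isIntegral _
  refine ⟨IntermediateField.adjoin K {(β : Ω)},
    IntermediateField.adjoin.finiteDimensional halg, fun g s hs => ?_⟩
  apply expZ_injective (Ω := Ω) hζ
  rw [expZ_kumChar, expZ_kumChar]
  have hsβ : s • β = β := by
    apply Units.ext
    rw [AlgEquiv.smul_units_def, Units.coe_map]
    exact (IntermediateField.mem_fixingSubgroup_iff _ _).1 hs _
      (IntermediateField.mem_adjoin_simple_self K _)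
  rw [mul_smul, hsβ]

end KummerChar

/-! ### Non-degeneracy of the level cup product -/

section Nondegenerate

variable {ζ : K} (hζ : IsPrimitiveRoot ζ p)

/-- a level cochain `f : G → 𝔽_p` exponentiates to a level cochain `G → Ωˣ` -/
theorem isLC_expZ {f : (Ω ≃ₐ[K] Ω) → ZMod p} (hf : IsLC f) :
    IsLC (fun g => expZ (Ω := Ω) hζ (f g)) := by
  obtain ⟨F, hF, h⟩ := hf
  exact ⟨F, hF, fun g s hs => by
    show expZ (Ω := Ω) hζ (f (g * s)) = expZ (Ω := Ω) hζ (f g)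
    rw [h g s hs]⟩

include hζ

/-- **Non-degeneracy (left) of the local cup product** `H¹(K, 𝔽_p) × H¹(K, 𝔽_p) → H²(K, 𝔽_p)` on the
level cohomology of `galLevels K Ω`, for `K ∋ ζ_p`, given the norm index hypothesis `(NI)`. -/
theorem exists_cupH11_ne_zero
    (hNI : ∀ L : IntermediateField K Ω, FiniteDimensional K L → IsGalois K L →
      Module.finrank K L = p → ∃ b : Kˣ, ∀ y : L, Algebra.norm K y ≠ (b : K))
    (hroot : ∀ b : Kˣ, ∃ β : Ωˣ, (β : Ω) ^ p = algebraMap K Ω b)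
    (x : (galLevels K Ω).H1 (trivRep K Ω p)) (hx : x ≠ 0) :
    ∃ y : (galLevels K Ω).H1 (trivRep K Ω p),
      LevelCup47.cupH11 (mulPairing K Ω p) (isSmooth_trivRep K Ω p) x y ≠ 0 ∧
      LevelCup47.cupH11 (mulPairing K Ω p) (isSmooth_trivRep K Ω p) y x ≠ 0 := by
  obtain ⟨a, rfl⟩ := LevelCup47.H1π_surjective (𝒰 := galLevels K Ω) (trivRep K Ω p) x
  have haZ : (a : (Ω ≃ₐ[K] Ω) → ZMod p) ∈ cocycles₁ (trivRep K Ω p) := a.2.1
  have haC : (galLevels K Ω).IsConst₁ (a : (Ω ≃ₐ[K] Ω) → ZMod p) := a.2.2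
  set χ := charOfCocycle (a : (Ω ≃ₐ[K] Ω) → ZMod p) haZ with hχdef
  have hχLC : IsLC χ := by
    obtain ⟨F, hF, h⟩ := (isLC_iff_isConst₁ _).2 haC
    exact ⟨F, hF, fun g s hs => congrArg Multiplicative.ofAdd (h g s hs)⟩
  have hχne : χ ≠ 1 := by
    intro h1
    apply hx
    have h0 : (a : (Ω ≃ₐ[K] Ω) → ZMod p) = 0 := by
      funext g
      have := congrArg Multiplicative.toAdd (DFunLike.congr_fun h1 g)
      exact this
    have : a = 0 := Subtype.ext h0
    rw [this, map_zero]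
  obtain ⟨b, β, hβ, hA, hB⟩ := exists_symbol_ne_zero hNI hroot χ hχLC hχne
  have hkZ := kumChar_mem_cocycles₁ hζ hβ
  have hkC : (galLevels K Ω).IsConst₁ (kumChar hζ hβ) :=
    (isLC_iff_isConst₁ _).1 (isLC_kumChar hζ hβ)
  let κ : ↥((galLevels K Ω).Z₁ (trivRep K Ω p)) := ⟨kumChar hζ hβ, hkZ, hkC⟩
  refine ⟨(galLevels K Ω).H1π (trivRep K Ω p) κ, ?_, ?_⟩
  · rw [LevelCup47.cupH11_π]
    intro h0
    rw [LevelStr.H2π_eq_zero_iff, LevelStr.mem_B₂_iff] at h0
    obtain ⟨f, hfC, hf⟩ := h0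
    refine hA (fun g => expZ (Ω := Ω) hζ (f g)) (isLC_expZ hζ ((isLC_iff_isConst₁ _).2 hfC))
      (fun g h => ?_)
    have h1 := congrFun hf (g, h)
    rw [d₁₂_hom_apply] at h1
    have h2 : f h - f (g * h) + f g = (a : (Ω ≃ₐ[K] Ω) → ZMod p) g * kumChar hζ hβ h := h1
    rw [smul_expZ, ← expZ_sub, ← expZ_add, h2, expZ_mul, expZ_kumChar]
    have h3 : g • (h • β / β) = h • β / β := by
      rw [← expZ_kumChar hζ hβ h, smul_expZ]
    rw [h3]
    rfl
  · rw [LevelCup47.cupH11_π]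
    intro h0
    rw [LevelStr.H2π_eq_zero_iff, LevelStr.mem_B₂_iff] at h0
    obtain ⟨f, hfC, hf⟩ := h0
    refine hB (fun g => expZ (Ω := Ω) hζ (f g)) (isLC_expZ hζ ((isLC_iff_isConst₁ _).2 hfC))
      (fun g h => ?_)
    have h1 := congrFun hf (g, h)
    rw [d₁₂_hom_apply] at h1
    have h2 : f h - f (g * h) + f g = kumChar hζ hβ g * (a : (Ω ≃ₐ[K] Ω) → ZMod p) h := h1
    rw [smul_expZ, ← expZ_sub, ← expZ_add, h2, mul_comm, expZ_mul, expZ_kumChar]
    rfl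

/-- `SeparatingLeft` and `SeparatingRight` of `Λ ∘ ∪` for an injective `Λ`. -/
theorem separating_of_injective
    (hNI : ∀ L : IntermediateField K Ω, FiniteDimensional K L → IsGalois K L →
      Module.finrank K L = p → ∃ b : Kˣ, ∀ y : L, Algebra.norm K y ≠ (b : K))
    (hroot : ∀ b : Kˣ, ∃ β : Ωˣ, (β : Ω) ^ p = algebraMap K Ω b)
    (Λ : (galLevels K Ω).H2 (trivRep K Ω p) →ₗ[ZMod p] ZMod p) (hΛ : Function.Injective Λ) :
    ((LevelCup47.cupH11 (mulPairing K Ω p) (isSmooth_trivRep K Ω p)).compr₂ Λ).SeparatingLeft ∧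
    ((LevelCup47.cupH11 (mulPairing K Ω p) (isSmooth_trivRep K Ω p)).compr₂ Λ).SeparatingRight := by
  constructor
  · intro x hx
    by_contra hne
    obtain ⟨y, hy, -⟩ := exists_cupH11_ne_zero hζ hNI hroot x hne
    apply hy
    apply hΛ
    rw [map_zero]
    exact hx y
  · intro x hx
    by_contra hne
    obtain ⟨y, -, hy⟩ := exists_cupH11_ne_zero hζ hNI hroot x hne
    apply hy
    apply hΛ
    rw [map_zero]
    exact hx y

end Nondegenerate

end Fermat.Agent.S55.LocHilbert21
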