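/-
S55 / 47d-LOC-HILBERT (helper21), file 6: THE INSTANCE for finite extensions of `ℚ_q` inside
`PadicAlgCl q` (`LocField17.LF q`).

* `padic_NI` : the norm-index hypothesis `(NI)` of `Galois.lean`/`Level.lean`, from helper17's
  `LocField17.index_norm_range_rel` (= helper95's `LocH95.index_norm_range`);
* `padic_root` : `p`-th roots in `PadicAlgCl q`;
* `padic_exists_cupH11_ne_zero`, `padic_separating` : UNCONDITIONAL non-degeneracy of the local cup
  product `H¹(G_{K0}, 𝔽_p) × H¹(G_{K0}, 𝔽_p) → H²(G_{K0}, 𝔽_p)` for `K0 ∋ ζ_p`.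
-/
import Fermat.Agent.S55.LocHilbert21.Level
import Fermat.Agent.S55.LocField17.LocHAdapt

set_option autoImplicit false
set_option linter.unusedSectionVars false
set_option linter.style.haveILetI false

namespace Fermat.Agent.S55.LocHilbert21
open Fermat.Agent.S55.LocField17 Fermat.Agent.S55.KummerBr95 Module

variable {q : ℕ} [Fact q.Prime] (K0 : LF q) [FiniteDimensional ℚ_[q] K0]

/-- **(NI) for finite extensions of `ℚ_q`**: a Galois extension of prime degree `p` of `K0` inside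
`PadicAlgCl q` has a non-norm. -/
theorem padic_NI {p : ℕ} [hp : Fact p.Prime] (L' : IntermediateField K0 (PadicAlgCl q))
    (hfd : FiniteDimensional K0 L') (hgal : IsGalois K0 L') (hdeg : finrank K0 L' = p) :
    ∃ b : (↥K0)ˣ, ∀ y : L', Algebra.norm K0 y ≠ (b : K0) := by
  classical
  -- the same field as an element of `LF q`
  set L : LF q := L'.restrictScalars ℚ_[q] with hL
  have h : K0 ≤ L := fun x hx => L'.algebraMap_mem ⟨x, hx⟩
  haveI : FiniteDimensional ℚ_[q] L :=
    (Module.Finite.trans (R := ℚ_[q]) K0 L' : Module.Finite ℚ_[q] L')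
  letI := relAlgebra h
  haveI := finiteDimensional_rel h
  -- the identity as a `K0`-algebra isomorphism
  let e : L' ≃ₐ[K0] L :=
    { toFun := fun x => ⟨x.1, x.2⟩
      invFun := fun x => ⟨x.1, x.2⟩
      left_inv := fun _ => rfl
      right_inv := fun _ => rfl
      map_mul' := fun _ _ => rfl
      map_add' := fun _ _ => rfl
      commutes' := fun _ => rfl }
  haveI : IsGalois K0 L := IsGalois.of_algEquiv e
  have hdegL : finrank K0 L = p := by rw [← hdeg]; exact e.toLinearEquiv.finrank_eq.symm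
  have hcard : Nat.card (L ≃ₐ[K0] L) = p := by rw [IsGalois.card_aut_eq_finrank, hdegL]
  haveI : IsCyclic (L ≃ₐ[K0] L) := isCyclic_of_prime_card hcard
  obtain ⟨σ₀, hσ⟩ := IsCyclic.exists_generator (α := L ≃ₐ[K0] L)
  have hidx := index_norm_range_rel h σ₀ hσ
  rw [hdegL] at hidx
  have hne : (Units.map (Algebra.norm K0 : L →* K0)).range ≠ ⊤ := by
    intro htop
    rw [htop, Subgroup.index_top] at hidx
    exact hp.out.one_lt.ne hidx
  obtain ⟨b, hb⟩ : ∃ b : (↥K0)ˣ, b ∉ (Units.map (Algebra.norm K0 : L →* K0)).range := by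
    by_contra hcon
    push Not at hcon
    exact hne (eq_top_iff.2 fun b _ => hcon b)
  refine ⟨b, fun y hy => hb ?_⟩
  have hy' : Algebra.norm K0 (e y) = (b : K0) := by rw [Algebra.norm_eq_of_algEquiv, hy]
  have hey0 : e y ≠ 0 := by
    intro h0
    rw [h0, Algebra.norm_zero] at hy'
    exact b.ne_zero hy'.symm
  exact ⟨Units.mk0 (e y) hey0, Units.ext hy'⟩

/-- `PadicAlgCl q` contains the `p`-th roots of the elements of `K0ˣ`. -/
theorem padic_root (p : ℕ) [hp : Fact p.Prime] (b : (↥K0)ˣ) :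
    ∃ β : (PadicAlgCl q)ˣ, (β : PadicAlgCl q) ^ p = algebraMap K0 (PadicAlgCl q) b := by
  obtain ⟨z, hz⟩ := IsAlgClosed.exists_pow_nat_eq (algebraMap K0 (PadicAlgCl q) (b : K0))
    hp.out.pos
  have hz0 : z ≠ 0 := by
    rintro rfl
    rw [zero_pow hp.out.ne_zero] at hz
    exact b.ne_zero ((map_eq_zero _).1 hz.symm)
  exact ⟨Units.mk0 z hz0, hz⟩

variable {p : ℕ} [hp : Fact p.Prime] {ζ : K0} (hζ : IsPrimitiveRoot ζ p)

include hζ

/-- **Non-degeneracy of the local cup product for a finite extension `K0 ∋ ζ_p` of `ℚ_q`**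
(any `q`, including `q = p`), unconditional: for `x ≠ 0` in `H¹(G_{K0}, 𝔽_p)` there is `y` with
`x ∪ y ≠ 0` and `y ∪ x ≠ 0` in `H²(G_{K0}, 𝔽_p)` (level cohomology of the Krull levels of
`Gal(PadicAlgCl q / K0)`). -/
theorem padic_exists_cupH11_ne_zero
    (x : (galLevels K0 (PadicAlgCl q)).H1 (trivRep K0 (PadicAlgCl q) p)) (hx : x ≠ 0) :
    ∃ y : (galLevels K0 (PadicAlgCl q)).H1 (trivRep K0 (PadicAlgCl q) p),
      LevelCup47.cupH11 (mulPairing K0 (PadicAlgCl q) p) (isSmooth_trivRep K0 (PadicAlgCl q) p)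
        x y ≠ 0 ∧
      LevelCup47.cupH11 (mulPairing K0 (PadicAlgCl q) p) (isSmooth_trivRep K0 (PadicAlgCl q) p)
        y x ≠ 0 :=
  exists_cupH11_ne_zero hζ (fun L' hfd hgal hdeg => padic_NI K0 L' hfd hgal hdeg)
    (padic_root K0 p) x hx

/-- **`Λ ∘ ∪` is separating on both sides for every injective `Λ : H²(G_{K0}, 𝔽_p) → 𝔽_p`.** -/
theorem padic_separating
    (Λ : (galLevels K0 (PadicAlgCl q)).H2 (trivRep K0 (PadicAlgCl q) p) →ₗ[ZMod p] ZMod p)
    (hΛ : Function.Injective Λ) :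
    ((LevelCup47.cupH11 (mulPairing K0 (PadicAlgCl q) p)
      (isSmooth_trivRep K0 (PadicAlgCl q) p)).compr₂ Λ).SeparatingLeft ∧
    ((LevelCup47.cupH11 (mulPairing K0 (PadicAlgCl q) p)
      (isSmooth_trivRep K0 (PadicAlgCl q) p)).compr₂ Λ).SeparatingRight :=
  separating_of_injective hζ (fun L' hfd hgal hdeg => padic_NI K0 L' hfd hgal hdeg)
    (padic_root K0 p) Λ hΛ

end Fermat.Agent.S55.LocHilbert21
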