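/-
S55 / 47d-LOC-HILBERT (helper21), file 7: the cochain-level form (`hsym` of
`LevelCup47.Symbol.separatingLeft_of_symbol`, helper47) of the non-degeneracy of the local cup
product: for every level `1`-cocycle `a` with nonzero class there is a level `1`-cocycle `b` such
that `a ∪ b` (and `b ∪ a`) is not a level coboundary.
-/
import Fermat.Agent.S55.LocHilbert21.Padic

set_option autoImplicit false
set_option linter.unusedSectionVars false

open CategoryTheory groupCohomology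

namespace Fermat.Agent.S55.LocHilbert21

open Fermat.Agent.S55.Profin15 Fermat.Agent.S55.Cup90 Fermat.Agent.S55.LevelCup47
  Fermat.Agent.S55.KummerBr95 Fermat.Agent.S55.LocField17

section General

variable {K Ω : Type} [Field K] [Field Ω] [Algebra K Ω] [IsGalois K Ω]
  {p : ℕ} [hp : Fact p.Prime] {ζ : K} (hζ : IsPrimitiveRoot ζ p)

include hζ

/-- cochain-level non-degeneracy (general `Ω/K`, given `(NI)` and `p`-th roots) -/
theorem exists_cup₁₁_not_mem_B₂
    (hNI : ∀ L : IntermediateField K Ω, FiniteDimensional K L → IsGalois K L →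
      Module.finrank K L = p → ∃ b : Kˣ, ∀ y : L, Algebra.norm K y ≠ (b : K))
    (hroot : ∀ b : Kˣ, ∃ β : Ωˣ, (β : Ω) ^ p = algebraMap K Ω b)
    (a : ↥((galLevels K Ω).Z₁ (trivRep K Ω p)))
    (ha : (galLevels K Ω).H1π (trivRep K Ω p) a ≠ 0) :
    ∃ b : ↥((galLevels K Ω).Z₁ (trivRep K Ω p)),
      cup₁₁ (mulPairing K Ω p) a.1 b.1 ∉ (galLevels K Ω).B₂ (trivRep K Ω p) ∧
      cup₁₁ (mulPairing K Ω p) b.1 a.1 ∉ (galLevels K Ω).B₂ (trivRep K Ω p) := by
  obtain ⟨y, h1, h2⟩ := exists_cupH11_ne_zero hζ hNI hroot _ ha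
  obtain ⟨b, rfl⟩ := LevelCup47.H1π_surjective (𝒰 := galLevels K Ω) (trivRep K Ω p) y
  refine ⟨b, fun hmem => h1 ?_, fun hmem => h2 ?_⟩
  · rw [LevelCup47.cupH11_π, LevelStr.H2π_eq_zero_iff]
    exact hmem
  · rw [LevelCup47.cupH11_π, LevelStr.H2π_eq_zero_iff]
    exact hmem

end General

section Padic

variable {q : ℕ} [Fact q.Prime] (K0 : LF q) [FiniteDimensional ℚ_[q] K0]
  {p : ℕ} [hp : Fact p.Prime] {ζ : K0} (hζ : IsPrimitiveRoot ζ p)

include hζ

/-- cochain-level non-degeneracy for a finite extension `K0 ∋ ζ_p` of `ℚ_q`, unconditional -/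
theorem padic_exists_cup₁₁_not_mem_B₂
    (a : ↥((galLevels K0 (PadicAlgCl q)).Z₁ (trivRep K0 (PadicAlgCl q) p)))
    (ha : (galLevels K0 (PadicAlgCl q)).H1π (trivRep K0 (PadicAlgCl q) p) a ≠ 0) :
    ∃ b : ↥((galLevels K0 (PadicAlgCl q)).Z₁ (trivRep K0 (PadicAlgCl q) p)),
      cup₁₁ (mulPairing K0 (PadicAlgCl q) p) a.1 b.1 ∉
        (galLevels K0 (PadicAlgCl q)).B₂ (trivRep K0 (PadicAlgCl q) p) ∧
      cup₁₁ (mulPairing K0 (PadicAlgCl q) p) b.1 a.1 ∉
        (galLevels K0 (PadicAlgCl q)).B₂ (trivRep K0 (PadicAlgCl q) p) :=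
  exists_cup₁₁_not_mem_B₂ hζ (fun L' hfd hgal hdeg => padic_NI K0 L' hfd hgal hdeg)
    (padic_root K0 p) a ha

end Padic

end Fermat.Agent.S55.LocHilbert21
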